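import Fermat.Prelude.Def_CuspForm_HeckeGaloisRepDatum
import Fermat.Prelude.Def_GaloisRep_DeformationRingData

set_option autoImplicit false

namespace Fermat.Agent.S54

open Polynomial

/-- Equivalent adic Galois representations have equal characteristic polynomials. -/
theorem charpoly_eq_of_equiv {A : Type} [CommRing A] [IsLocalRing A] {ρ₁ ρ₂ : GaloisRepAdic A}
    (e : GaloisRepAdic.Equiv ρ₁ ρ₂) (σ : AlgebraicClosure ℚ ≃ₐ[ℚ] AlgebraicClosure ℚ) :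
    LinearMap.charpoly (ρ₂.ρ σ) = LinearMap.charpoly (ρ₁.ρ σ) := by
  have h : ρ₂.ρ σ = e.toLinearEquiv.conj (ρ₁.ρ σ) := by
    apply LinearMap.ext
    intro x
    rw [LinearEquiv.conj_apply, LinearMap.comp_apply, LinearMap.comp_apply]
    change _ = e.toLinearEquiv (ρ₁.ρ σ (e.toLinearEquiv.symm x))
    rw [e.map_apply, LinearEquiv.apply_symm_apply]
  rw [h, LinearEquiv.charpoly_conj]

/-- Characteristic polynomials commute with base change of adic Galois representations. -/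
theorem charpoly_baseChangeAlong {A B : Type} [CommRing A] [IsLocalRing A] [CommRing B]
    [IsLocalRing B] (φ : A →+* B) (hφ : IsLocalHom φ) (ρ : GaloisRepAdic A)
    (σ : AlgebraicClosure ℚ ≃ₐ[ℚ] AlgebraicClosure ℚ) :
    LinearMap.charpoly ((ρ.baseChangeAlong φ hφ).ρ σ) = (LinearMap.charpoly (ρ.ρ σ)).map φ := by
  let _ : Algebra A B := φ.toAlgebra
  exact LinearMap.charpoly_baseChange (ρ.ρ σ) B

end Fermat.Agent.S54

namespace Fermat.Agent.S54

open Polynomial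

/-- Existence of Frobenius elements at every prime (to be supplied separately). -/
def FrobeniusExists : Prop :=
  ∀ ℓ : ℕ, ℓ.Prime → ∃ (A : ValuationSubring (AlgebraicClosure ℚ))
    (σ : AlgebraicClosure ℚ ≃ₐ[ℚ] AlgebraicClosure ℚ), A.LiesOverPrime ℓ ∧ A.IsFrobeniusAt σ ℓ

theorem coeff_one_quadratic {T : Type} [CommRing T] (a b : T) :
    (X ^ 2 - C a * X + C b : T[X]).coeff 1 = -a := by
  simp [coeff_X_pow, coeff_C]

theorem result_of_frobeniusExists (hFrob : FrobeniusExists)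
    {𝒪 : Type} [CommRing 𝒪] [IsDomain 𝒪] [IsDiscreteValuationRing 𝒪]
    [IsAdicComplete (IsLocalRing.maximalIdeal 𝒪) 𝒪]
    {ρbar : ResidualGaloisRep (IsLocalRing.ResidueField 𝒪)}
    {𝒟 : ∀ ⦃A : Type⦄ [CommRing A] [IsLocalRing A] [Algebra 𝒪 A], GaloisRepAdic A → Prop}
    (D : GaloisRep.DeformationRingData 𝒪 ρbar 𝒟) {N : ℕ} [NeZero N] {S : Set ℕ}
    {θ : CuspForm.heckeAlgebra N 2 S →+* IsLocalRing.ResidueField 𝒪} {T : Type} [CommRing T]
    [IsLocalRing T] [IsNoetherianRing T] [IsAdicComplete (IsLocalRing.maximalIdeal T) T]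
    [Algebra 𝒪 T] [IsLocalHom (algebraMap 𝒪 T)] [Module.Finite 𝒪 T] [Module.Free 𝒪 T]
    (H : CuspForm.HeckeGaloisRepDatum N S 𝒪 θ T) (hS : ∀ q : ℕ, q.Prime → q ∣ N → q ∈ S)
    (h𝒟 : 𝒟 H.ρ)
    (hres : H.ρ.residual.IsEquiv
      (ρbar.baseChangeAlong (IsLocalRing.ResidueField.map (algebraMap 𝒪 T)))) :
    ∃ φ : D.R →ₐ[𝒪] T, Function.Surjective φ ∧ ∃ hφ : IsLocalHom (φ : D.R →+* T),
      (D.ρ.baseChangeAlong (φ : D.R →+* T) hφ).IsEquiv H.ρ := by
  obtain ⟨φ, ⟨hφ, ⟨e⟩⟩, -⟩ := D.universal T H.residue_surjective H.ρ h𝒟 hres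
  refine ⟨φ, ?_, hφ, ⟨e⟩⟩
  -- surjectivity
  rw [← AlgHom.range_eq_top, eq_top_iff, ← H.adjoin_range_π, Algebra.adjoin_le_iff]
  rintro _ ⟨⟨t, ht⟩, rfl⟩
  change H.π ⟨t, ht⟩ ∈ φ.range
  induction ht using Algebra.adjoin_induction with
  | mem x hx =>
    rcases hx with ⟨ℓ, hℓ, hℓN, hℓS, rfl⟩ | ⟨q, hqN, hq, hqS, rfl⟩
    · obtain ⟨A, σ, hA, hσ⟩ := hFrob ℓ hℓ
      have h1 := H.charpoly_frob ℓ hℓ hℓN hℓS A hA σ hσ
      have h2 : LinearMap.charpoly (H.ρ.ρ σ) =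
          (LinearMap.charpoly (D.ρ.ρ σ)).map (φ : D.R →+* T) := by
        rw [charpoly_eq_of_equiv e σ, charpoly_baseChangeAlong]
      have h3 := congrArg (fun p => Polynomial.coeff p 1) (h1.symm.trans h2)
      simp only [coeff_one_quadratic, coeff_map] at h3
      refine ⟨-(LinearMap.charpoly (D.ρ.ρ σ)).coeff 1, ?_⟩
      rw [map_neg]
      have h4 : H.π (CuspForm.heckeAlgebra.T hℓ hℓN hℓS) =
          -((φ : D.R →+* T) ((LinearMap.charpoly (D.ρ.ρ σ)).coeff 1)) := by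
        rw [← h3, neg_neg]
      exact h4.symm
    · exact absurd (hS q hq hqN) hqS
  | algebraMap n =>
    refine ⟨algebraMap ℤ D.R n, ?_⟩
    have : (⟨algebraMap ℤ _ n, Subalgebra.algebraMap_mem _ n⟩ : CuspForm.heckeAlgebra N 2 S) =
        algebraMap ℤ (CuspForm.heckeAlgebra N 2 S) n := rfl
    rw [this]
    simp
  | add x y hx hy ihx ihy =>
    have : (⟨x + y, add_mem hx hy⟩ : CuspForm.heckeAlgebra N 2 S) = ⟨x, hx⟩ + ⟨y, hy⟩ := rfl
    rw [this, map_add]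
    exact add_mem ihx ihy
  | mul x y hx hy ihx ihy =>
    have : (⟨x * y, mul_mem hx hy⟩ : CuspForm.heckeAlgebra N 2 S) = ⟨x, hx⟩ * ⟨y, hy⟩ := rfl
    rw [this, map_mul]
    exact mul_mem ihx ihy

end Fermat.Agent.S54
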